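import Fermat.Prelude.Def_CuspForm_HeckeGaloisRepDatum
import Fermat.Agent.Pseudo.TraceGQ

/-!
# S32 track, leaf L6 (GEN): the Hecke operators `T_ℓ`, `ℓ ∉ S`, generate

For a finite set `S` containing all primes dividing `N` the algebra `heckeAlgebra N k ↑S` is
generated over `ℤ` by the `T_ℓ`, `ℓ ∉ S` (the `U`-part of `heckeGenerators` is empty).  Hence for a
datum `H : HeckeGaloisRepDatum N ↑S 𝒪 θ T` the ring `T` is generated over `𝒪` by the `π (T_ℓ)`, and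
`MvPolynomial (Idx S) 𝒪 → T ⧸ I` is onto.  Also `Finite (ResidueField T)` and `(p : T) ∈ 𝔪_T`.
-/

set_option autoImplicit false
set_option linter.unusedSectionVars false

namespace Fermat.Agent.FF2.S32G

open CuspForm IsLocalRing Fermat.Agent.Pseudo.GQSys

variable {N : ℕ} [NeZero N] {S : Finset ℕ}

theorem not_dvd_of_idx (hNS : ∀ q : ℕ, q.Prime → q ∣ N → q ∈ S) (i : Idx S) :
    ¬ (i.1 : ℕ) ∣ N := fun h => i.2 (hNS _ i.1.2 h)

theorem notMem_coe_of_idx (i : Idx S) : (i.1 : ℕ) ∉ (↑S : Set ℕ) := fun h => i.2 (by simpa using h)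

/-- The generator `T_ℓ`, `ℓ ∉ S`, of the Hecke algebra. -/
noncomputable def Tgen (k : ℤ) (hNS : ∀ q : ℕ, q.Prime → q ∣ N → q ∈ S) (i : Idx S) :
    heckeAlgebra N k (↑S : Set ℕ) :=
  heckeAlgebra.T i.1.2 (not_dvd_of_idx hNS i) (notMem_coe_of_idx i)

theorem Tgen_eq (k : ℤ) (hNS : ∀ q : ℕ, q.Prime → q ∣ N → q ∈ S) (i : Idx S)
    (h1 : ¬ (i.1 : ℕ) ∣ N) (h2 : (i.1 : ℕ) ∉ (↑S : Set ℕ)) :
    Tgen k hNS i = heckeAlgebra.T i.1.2 h1 h2 := rfl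

theorem Tgen_mk (k : ℤ) (hNS : ∀ q : ℕ, q.Prime → q ∣ N → q ∈ S) {ℓ : ℕ} (hℓ : ℓ.Prime)
    (hℓN : ¬ ℓ ∣ N) (hℓS : ℓ ∉ (↑S : Set ℕ)) :
    Tgen k hNS ⟨⟨ℓ, hℓ⟩, fun h => hℓS (by simpa using h)⟩ = heckeAlgebra.T hℓ hℓN hℓS := rfl

/-- Every generator of the Hecke algebra is a `T_ℓ` with `ℓ ∉ S`. -/
theorem preimage_heckeGenerators_subset (k : ℤ) (hNS : ∀ q : ℕ, q.Prime → q ∣ N → q ∈ S) :
    ((↑) ⁻¹' heckeGenerators N k (↑S : Set ℕ) : Set (heckeAlgebra N k (↑S : Set ℕ)))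
      ⊆ Set.range (Tgen k hNS) := by
  rintro ⟨t, ht⟩ (⟨ℓ, hℓ, hℓN, hℓS, rfl⟩ | ⟨q, hqN, hq, hqS, rfl⟩)
  · exact ⟨⟨⟨ℓ, hℓ⟩, fun h => hℓS (by simpa using h)⟩, rfl⟩
  · exact absurd (by simpa using hNS q hq hqN) hqS

/-- **(GEN-ℤ)** `heckeAlgebra N k ↑S = ℤ[T_ℓ : ℓ ∉ S]`. -/
theorem adjoin_range_Tgen (k : ℤ) (hNS : ∀ q : ℕ, q.Prime → q ∣ N → q ∈ S) :
    Algebra.adjoin ℤ (Set.range (Tgen (N := N) k hNS)) = ⊤ := by
  have h := Algebra.adjoin_adjoin_coe_preimage (R := ℤ) (s := heckeGenerators N k (↑S : Set ℕ))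
  exact top_le_iff.mp (h ▸ Algebra.adjoin_mono (preimage_heckeGenerators_subset k hNS))

/-- A ring hom out of the Hecke algebra has image inside the subalgebra generated by the images of
the `T_ℓ`. -/
theorem ringHom_mem_adjoin {R A : Type*} [CommRing R] [CommRing A] [Algebra R A] (k : ℤ)
    (hNS : ∀ q : ℕ, q.Prime → q ∣ N → q ∈ S) (π : heckeAlgebra N k (↑S : Set ℕ) →+* A)
    (t : heckeAlgebra N k (↑S : Set ℕ)) :
    π t ∈ Algebra.adjoin R (Set.range fun i : Idx S => π (Tgen k hNS i)) := by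
  have ht : t ∈ Algebra.adjoin ℤ (Set.range (Tgen (N := N) k hNS)) := by
    rw [adjoin_range_Tgen]; exact Algebra.mem_top
  induction ht using Algebra.adjoin_induction with
  | mem x hx =>
    obtain ⟨i, rfl⟩ := hx
    exact Algebra.subset_adjoin ⟨i, rfl⟩
  | algebraMap r =>
    rw [eq_intCast (algebraMap ℤ (heckeAlgebra N k (↑S : Set ℕ))) r, map_intCast]
    exact intCast_mem _ r
  | add x y _ _ hx hy => rw [map_add]; exact add_mem hx hy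
  | mul x y _ _ hx hy => rw [map_mul]; exact mul_mem hx hy

variable {𝒪 : Type} [CommRing 𝒪] [IsDomain 𝒪] [IsDiscreteValuationRing 𝒪]
  [IsAdicComplete (IsLocalRing.maximalIdeal 𝒪) 𝒪]
  {θ : CuspForm.heckeAlgebra N 2 (↑S : Set ℕ) →+* IsLocalRing.ResidueField 𝒪}
  {T : Type} [CommRing T] [IsLocalRing T] [IsNoetherianRing T]
  [IsAdicComplete (IsLocalRing.maximalIdeal T) T] [Algebra 𝒪 T] [IsLocalHom (algebraMap 𝒪 T)]
  [Module.Finite 𝒪 T] [Module.Free 𝒪 T]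

/-- **(GEN)** `T = 𝒪[π(T_ℓ) : ℓ ∉ S]`. -/
theorem adjoin_range_π_Tgen (hNS : ∀ q : ℕ, q.Prime → q ∣ N → q ∈ S)
    (H : HeckeGaloisRepDatum N (↑S : Set ℕ) 𝒪 θ T) :
    Algebra.adjoin 𝒪 (Set.range fun i : Idx S => H.π (Tgen 2 hNS i)) = ⊤ := by
  rw [eq_top_iff, ← H.adjoin_range_π]
  refine Algebra.adjoin_le ?_
  rintro _ ⟨t, rfl⟩
  exact ringHom_mem_adjoin 2 hNS H.π t

/-- **(GEN)** the evaluation `𝒪[x_ℓ : ℓ ∉ S] → T`, `x_ℓ ↦ π(T_ℓ)`, is onto. -/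
theorem aeval_π_surjective (hNS : ∀ q : ℕ, q.Prime → q ∣ N → q ∈ S)
    (H : HeckeGaloisRepDatum N (↑S : Set ℕ) 𝒪 θ T) :
    Function.Surjective
      (MvPolynomial.aeval (R := 𝒪) fun i : Idx S => H.π (Tgen 2 hNS i)) := by
  rw [← AlgHom.range_eq_top, ← Algebra.adjoin_range_eq_range_aeval]
  exact adjoin_range_π_Tgen hNS H

/-- **(GEN)** the evaluation `𝒪[x_ℓ : ℓ ∉ S] → T ⧸ I`, `x_ℓ ↦ π(T_ℓ) mod I`, is onto. -/
theorem aeval_π_quotient_surjective (hNS : ∀ q : ℕ, q.Prime → q ∣ N → q ∈ S)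
    (H : HeckeGaloisRepDatum N (↑S : Set ℕ) 𝒪 θ T) (I : Ideal T) :
    Function.Surjective
      (MvPolynomial.aeval (R := 𝒪) fun i : Idx S => Ideal.Quotient.mk I (H.π (Tgen 2 hNS i))) := by
  have h : (MvPolynomial.aeval (R := 𝒪)
      fun i : Idx S => Ideal.Quotient.mk I (H.π (Tgen 2 hNS i)))
      = (Ideal.Quotient.mkₐ 𝒪 I).comp
        (MvPolynomial.aeval (R := 𝒪) fun i : Idx S => H.π (Tgen 2 hNS i)) := by
    rw [MvPolynomial.comp_aeval]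
    rfl
  rw [h, AlgHom.coe_comp]
  exact (Ideal.Quotient.mkₐ_surjective 𝒪 I).comp (aeval_π_surjective hNS H)

/-- **(FIN-k)** the residue field of `T` is finite. -/
theorem finite_residueField [Finite (ResidueField 𝒪)]
    (H : HeckeGaloisRepDatum N (↑S : Set ℕ) 𝒪 θ T) : Finite (ResidueField T) := by
  refine Finite.of_surjective (ResidueField.map (algebraMap 𝒪 T)) ?_
  intro x
  obtain ⟨a, ha⟩ := H.residue_surjective x
  exact ⟨residue 𝒪 a, by rw [ResidueField.map_residue]; exact ha⟩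

/-- **(p ∈ 𝔪)** `p` is in the maximal ideal of `T`. -/
theorem natCast_mem_maximalIdeal {p : ℕ} (hp𝒪 : (p : 𝒪) ∈ maximalIdeal 𝒪) :
    (p : T) ∈ maximalIdeal T := by
  rw [mem_maximalIdeal] at hp𝒪 ⊢
  rw [← map_natCast (algebraMap 𝒪 T) p]
  exact (map_mem_nonunits_iff (algebraMap 𝒪 T) _).mpr hp𝒪

end Fermat.Agent.FF2.S32G
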